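import Mathlib.Combinatorics.HalesJewett
import Mathlib.Algebra.BigOperators.Group.Finset.Sigma
import Mathlib.Data.Fintype.BigOperators
import Mathlib.Data.Fin.Tuple.Basic
import Mathlib.Logic.Equiv.Fin.Basic
import Mathlib.Data.Real.Basic

/-!
# Combinatorial subspaces: composition, products and lifting

Elementary operations on combinatorial subspaces and lines used in the proof of the density
Hales–Jewett theorem.
-/

namespace FA.DensityHJ

open Combinatorics Function

variable {α β η θ ι : Type*}

/-- Composition of combinatorial subspaces. -/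
def compSub (l : Subspace η α ι) (m : Subspace θ α η) : Subspace θ α ι where
  idxFun i := (l.idxFun i).elim Sum.inl m.idxFun
  proper e := by
    obtain ⟨j, hj⟩ := m.proper e
    obtain ⟨i, hi⟩ := l.proper j
    exact ⟨i, by simp [hi, hj]⟩

@[simp] lemma compSub_apply (l : Subspace η α ι) (m : Subspace θ α η) (y : θ → α) :
    compSub l m y = l (m y) := by
  funext i
  cases h : l.idxFun i <;> simp [compSub, Subspace.coe_apply, h]

/-- The whole cube as a subspace of itself. -/
def idSub (α ι : Type*) : Subspace ι α ι := ⟨Sum.inr, fun i ↦ ⟨i, rfl⟩⟩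

@[simp] lemma idSub_apply (y : ι → α) : idSub α ι y = y := rfl

/-- A subspace over `α`, seen over the alphabet `α` with one more letter. -/
def liftSub (l : Subspace η α ι) : Subspace η (Option α) ι where
  idxFun i := (l.idxFun i).map some id
  proper e := by
    obtain ⟨i, hi⟩ := l.proper e
    exact ⟨i, by simp [hi]⟩

/-- Replacing the new letter by `a`. -/
def ground (a : α) (x : ι → Option α) : ι → α := fun i ↦ (x i).getD a

@[simp] lemma ground_some (a : α) (w : ι → α) : ground a (some ∘ w) = w := rfl

lemma liftSub_some (l : Subspace η α ι) (w : η → α) : liftSub l (some ∘ w) = some ∘ l w := by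
  funext i
  cases h : l.idxFun i <;> simp [liftSub, Subspace.coe_apply, h]

lemma ground_liftSub (l : Subspace η α ι) (a : α) (y : η → Option α) :
    ground a (liftSub l y) = l (ground a y) := by
  funext i
  cases h : l.idxFun i <;> simp [ground, liftSub, Subspace.coe_apply, h]

lemma ground_apply_ground (l : Subspace η (Option α) ι) (a : α) (y : η → Option α) :
    ground a (l (some ∘ ground a y)) = ground a (l y) := by
  funext i
  cases h : l.idxFun i <;> simp [ground, Subspace.coe_apply, h]

/-- A set of words over `Option α` that does not distinguish the new letter from `a`. -/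
def Insens (a : α) (D : Set (ι → Option α)) : Prop :=
  ∀ x, some ∘ ground a x ∈ D ↔ x ∈ D

lemma Insens.compl {a : α} {D : Set (ι → Option α)} (h : Insens a D) : Insens a Dᶜ :=
  fun x ↦ not_congr (h x)

lemma Insens.preimage {a : α} {D : Set (ι → Option α)} (h : Insens a D)
    (l : Subspace η (Option α) ι) : Insens a {y | l y ∈ D} := fun y ↦ by
  simp only [Set.mem_ofPred_eq]
  rw [← h, ← h (l y), ground_apply_ground]

lemma insens_ground (a : α) (S : Set (ι → α)) : Insens a {x | ground a x ∈ S} := fun x ↦ by
  simp

section Append

variable {m r : ℕ}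

/-- Product of two subspaces. -/
def prodSub (l : Subspace η β (Fin m)) (l' : Subspace θ β (Fin r)) :
    Subspace (η ⊕ θ) β (Fin (m + r)) where
  idxFun := Fin.append (fun i ↦ (l.idxFun i).map id Sum.inl)
    (fun i ↦ (l'.idxFun i).map id Sum.inr)
  proper := by
    rintro (e | e)
    · obtain ⟨i, hi⟩ := l.proper e
      exact ⟨Fin.castAdd r i, by simp [hi]⟩
    · obtain ⟨i, hi⟩ := l'.proper e
      exact ⟨Fin.natAdd m i, by simp [hi]⟩

@[simp] lemma prodSub_apply (l : Subspace η β (Fin m)) (l' : Subspace θ β (Fin r))
    (y : η ⊕ θ → β) : prodSub l l' y = Fin.append (l (y ∘ Sum.inl)) (l' (y ∘ Sum.inr)) := by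
  funext i
  refine Fin.addCases (fun i ↦ ?_) (fun i ↦ ?_) i
  · cases h : l.idxFun i <;> simp [prodSub, Subspace.coe_apply, h]
  · cases h : l'.idxFun i <;> simp [prodSub, Subspace.coe_apply, h]

/-- Prefixing a fixed word to a subspace. -/
def leftFix (x : Fin m → β) (l : Subspace θ β (Fin r)) : Subspace θ β (Fin (m + r)) where
  idxFun := Fin.append (fun i ↦ Sum.inl (x i)) l.idxFun
  proper e := by
    obtain ⟨i, hi⟩ := l.proper e
    exact ⟨Fin.natAdd m i, by simp [hi]⟩

@[simp] lemma leftFix_apply (x : Fin m → β) (l : Subspace θ β (Fin r)) (y : θ → β) :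
    leftFix x l y = Fin.append x (l y) := by
  funext i
  refine Fin.addCases (fun i ↦ ?_) (fun i ↦ ?_) i <;> simp [leftFix, Subspace.coe_apply]

/-- Suffixing a fixed word to a subspace. -/
def rightFix (l : Subspace η β (Fin m)) (z : Fin r → β) : Subspace η β (Fin (m + r)) where
  idxFun := Fin.append l.idxFun (fun i ↦ Sum.inl (z i))
  proper e := by
    obtain ⟨i, hi⟩ := l.proper e
    exact ⟨Fin.castAdd r i, by simp [hi]⟩

@[simp] lemma rightFix_apply (l : Subspace η β (Fin m)) (z : Fin r → β) (y : η → β) :
    rightFix l z y = Fin.append (l y) z := by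
  funext i
  refine Fin.addCases (fun i ↦ ?_) (fun i ↦ ?_) i <;> simp [rightFix, Subspace.coe_apply]

lemma ground_append (a : α) (x : Fin m → Option α) (z : Fin r → Option α) :
    ground a (Fin.append x z) = Fin.append (ground a x) (ground a z) := by
  funext i
  refine Fin.addCases (fun i ↦ ?_) (fun i ↦ ?_) i <;> simp [ground]

lemma some_comp_append (x : Fin m → α) (z : Fin r → α) :
    some ∘ Fin.append x z = Fin.append (some ∘ x) (some ∘ z) := by
  funext i
  refine Fin.addCases (fun i ↦ ?_) (fun i ↦ ?_) i <;> simp

lemma sum_append [Fintype β] {M : Type*} [AddCommMonoid M] (f : (Fin (m + r) → β) → M) :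
    ∑ v, f v = ∑ x : Fin m → β, ∑ z : Fin r → β, f (Fin.append x z) := by
  rw [← (Fin.appendEquiv m r).sum_comp, Fintype.sum_prod_type]
  rfl

lemma card_cube_add [Fintype β] :
    (Fintype.card (Fin (m + r) → β) : ℝ) =
      Fintype.card (Fin m → β) * Fintype.card (Fin r → β) := by
  simp [pow_add]

end Append

/-- A line inside a subspace is a line of the ambient cube. -/
def pushLine (l : Subspace η β ι) (L : Line β η) : Line β ι where
  idxFun i := (l.idxFun i).elim some L.idxFun
  proper := by
    obtain ⟨j, hj⟩ := L.proper
    obtain ⟨i, hi⟩ := l.proper j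
    exact ⟨i, by simp [hi, hj]⟩

lemma pushLine_apply (l : Subspace η β ι) (L : Line β η) (b : β) :
    pushLine l L b = l (L b) := by
  funext i
  cases h : l.idxFun i <;> simp [pushLine, Subspace.coe_apply, h]

/-- A line as a word with at least one new letter. -/
def lineWord (L : Line α η) : η → Option α := L.idxFun

lemma ground_lineWord (L : Line α η) (a : α) : ground a (lineWord L) = L a := by
  funext i
  simp [ground, lineWord]

lemma lineWord_pushLine (l : Subspace η α ι) (L : Line α η) :
    lineWord (pushLine l L) = liftSub l (lineWord L) := by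
  funext i
  cases h : l.idxFun i <;> simp [lineWord, pushLine, liftSub, Subspace.coe_apply, h]

/-- A word containing the new letter, as a line over the alphabet with the new letter. -/
def optionLine (x : ι → Option α) (hx : ∃ i, x i = none) : Line (Option α) ι where
  idxFun i := (x i).map some
  proper := by
    obtain ⟨i, hi⟩ := hx
    exact ⟨i, by simp [hi]⟩

lemma optionLine_none (x : ι → Option α) (hx : ∃ i, x i = none) :
    optionLine x hx none = x := by
  funext i
  cases h : x i <;> simp [optionLine, h]

lemma optionLine_some (x : ι → Option α) (hx : ∃ i, x i = none) (a : α) :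
    optionLine x hx (some a) = some ∘ ground a x := by
  funext i
  cases h : x i <;> simp [optionLine, ground, h]

lemma exists_none_liftSub (l : Subspace η α ι) {y : η → Option α} (hy : ∃ e, y e = none) :
    ∃ i, liftSub l y i = none := by
  obtain ⟨e, he⟩ := hy
  obtain ⟨i, hi⟩ := l.proper e
  exact ⟨i, by simp [liftSub, Subspace.coe_apply, hi, he]⟩

end FA.DensityHJ
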