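import Fermat.Agent.DensityHJ.Basic
import Mathlib.Combinatorics.Pigeonhole
import Mathlib.Data.Finset.Sort

/-!
# The Graham–Rothschild theorem for lines

A line of the cube over `α` is a word over `Option α` with at least one new letter. For a finite
colouring of such words in high dimension there is a subspace over `α` of given dimension all of
whose lines have the same colour. The proof uses the Hales–Jewett theorem twice: first to make
the colour depend only on the letters before the first new letter, then on its position alone.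
-/

namespace FA.DensityHJ

open Combinatorics Function

variable {α η θ ι : Type*}

lemma liftSub_compSub (l : Subspace η α ι) (m : Subspace θ α η) (y : θ → Option α) :
    liftSub (compSub l m) y = liftSub l (liftSub m y) := by
  funext i
  cases h : l.idxFun i with
  | inl a => simp [liftSub, compSub, Subspace.coe_apply, h]
  | inr e => cases h' : m.idxFun e <;> simp [liftSub, compSub, Subspace.coe_apply, h, h']

lemma liftSub_prodSub {p r : ℕ} (l : Subspace η α (Fin p)) (l' : Subspace θ α (Fin r))
    (y : η ⊕ θ → Option α) :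
    liftSub (prodSub l l') y =
      Fin.append (liftSub l (y ∘ Sum.inl)) (liftSub l' (y ∘ Sum.inr)) := by
  funext i
  refine Fin.addCases (fun i ↦ ?_) (fun i ↦ ?_) i
  · cases h : l.idxFun i <;> simp [prodSub, liftSub, Subspace.coe_apply, h]
  · cases h : l'.idxFun i <;> simp [prodSub, liftSub, Subspace.coe_apply, h]

/-- The colour depends only on the letters before any chosen new letter. -/
def PrefixProp {α κ : Type*} {n : ℕ} (c : (Fin n → Option α) → κ) : Prop :=
  ∀ y y' : Fin n → Option α, ∀ s, y s = none → y' s = none → (∀ t < s, y t = y' t) → c y = c y'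

theorem exists_prefix_subspace (α : Type) [Finite α] (m : ℕ) :
    ∀ (κ : Type) [Finite κ], ∃ n, ∀ c : (Fin n → Option α) → κ,
      ∃ l : Subspace (Fin m) α (Fin n), PrefixProp (fun y ↦ c (liftSub l y)) := by
  induction m with
  | zero =>
    intro κ _
    exact ⟨0, fun c ↦ ⟨idSub α _, fun y y' s ↦ s.elim0⟩⟩
  | succ m ih =>
    intro κ _
    obtain ⟨n'', hn''⟩ := ih (α → κ)
    obtain ⟨n', hn'⟩ :=
      Subspace.exists_mono_in_high_dimension_fin (Option α) κ (Fin n'')
    refine ⟨n' + 1, fun c ↦ ?_⟩
    obtain ⟨U, c0, hU⟩ := hn' fun u ↦ c (Fin.cons none u)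
    let P : Subspace (Fin (n'' + 1)) α (Fin (n' + 1)) :=
      { idxFun := Fin.cons (Sum.inr 0) fun i ↦ (U.idxFun i).elim
          (fun o ↦ o.elim (Sum.inr 0) Sum.inl) (fun e ↦ Sum.inr e.succ)
        proper := fun e ↦ by
          refine Fin.cases ?_ (fun e ↦ ?_) e
          · exact ⟨0, rfl⟩
          · obtain ⟨i, hi⟩ := U.proper e
            exact ⟨i.succ, by simp [hi]⟩ }
    have hP : ∀ u, liftSub P (Fin.cons none u) = Fin.cons none (U u) := by
      intro u
      funext i
      refine Fin.cases ?_ (fun i ↦ ?_) i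
      · simp [P, liftSub, Subspace.coe_apply]
      · rcases h : U.idxFun i with (_ | a) | e <;>
          simp [P, liftSub, Subspace.coe_apply, h]
    obtain ⟨W, hW⟩ := hn'' fun u a ↦ c (liftSub P (Fin.cons (some a) u))
    let W' : Subspace (Fin (m + 1)) α (Fin (n'' + 1)) :=
      { idxFun := Fin.cons (Sum.inr 0) fun i ↦ (W.idxFun i).map id Fin.succ
        proper := fun e ↦ by
          refine Fin.cases ?_ (fun e ↦ ?_) e
          · exact ⟨0, rfl⟩
          · obtain ⟨i, hi⟩ := W.proper e
            exact ⟨i.succ, by simp [hi]⟩ }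
    have hW' : ∀ y, liftSub W' y = Fin.cons (y 0) (liftSub W (Fin.tail y)) := by
      intro y
      funext i
      refine Fin.cases ?_ (fun i ↦ ?_) i
      · simp [W', liftSub, Subspace.coe_apply]
      · cases h : W.idxFun i <;> simp [W', liftSub, Subspace.coe_apply, Fin.tail, h]
    refine ⟨compSub P W', fun y y' s ↦ ?_⟩
    refine Fin.cases ?_ (fun s' ↦ ?_) s
    · intro hy hy' _
      simp only [liftSub_compSub, hW', hy, hy', hP, hU]
    · intro hy hy' hlt
      have h0 : y 0 = y' 0 := hlt 0 (Fin.succ_pos _)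
      simp only [liftSub_compSub, hW']
      rw [← h0]
      rcases hy0 : y 0 with _ | a
      · simp only [hP, hU]
      · exact congrFun (hW (Fin.tail y) (Fin.tail y') s' hy hy'
          fun t ht ↦ hlt t.succ (Fin.succ_lt_succ_iff.2 ht)) a

theorem exists_position_subspace (α : Type) [Finite α] (m : ℕ) :
    ∀ (κ : Type) [Finite κ], ∃ n, ∀ c : (Fin n → Option α) → κ, PrefixProp c →
      ∃ l : Subspace (Fin m) α (Fin n), ∃ col : Fin m → κ,
        ∀ y s, y s = none → (∀ t < s, y t ≠ none) → c (liftSub l y) = col s := by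
  induction m with
  | zero =>
    intro κ _
    exact ⟨0, fun c _ ↦ ⟨idSub α _, Fin.elim0, fun y s ↦ s.elim0⟩⟩
  | succ m ih =>
    intro κ _
    obtain ⟨p, hp⟩ := Subspace.exists_mono_in_high_dimension_fin α (Fin m → κ) Unit
    obtain ⟨n'', hn''⟩ := ih ((Fin p → α) → κ)
    refine ⟨p + n'', fun c hc ↦ ?_⟩
    let c' : (Fin n'' → Option α) → (Fin p → α) → κ := fun u w ↦ c (Fin.append (some ∘ w) u)
    have hc' : PrefixProp c' := by
      intro y y' s hy hy' hlt
      funext w
      refine hc _ _ (Fin.natAdd p s) (by simp [hy]) (by simp [hy']) ?_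
      intro t
      refine Fin.addCases (fun i _ ↦ ?_) (fun i hi ↦ ?_) t
      · simp
      · have hi' : i < s := by
          simp only [Fin.lt_def, Fin.val_natAdd] at hi ⊢
          omega
        simp [hlt i hi']
    obtain ⟨U, col', hU⟩ := hn'' c' hc'
    obtain ⟨L, C, hL⟩ := hp fun w s ↦ col' s w
    let R : Subspace (Fin (m + 1)) α (Unit ⊕ Fin m) :=
      { idxFun := Sum.elim (fun _ ↦ Sum.inr 0) fun e ↦ Sum.inr e.succ
        proper := fun e ↦ by
          refine Fin.cases ?_ (fun e ↦ ?_) e
          · exact ⟨Sum.inl (), rfl⟩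
          · exact ⟨Sum.inr e, rfl⟩ }
    refine ⟨compSub (prodSub L U) R,
      Fin.cons (c (Fin.append (liftSub L fun _ ↦ none) fun _ ↦ none)) C, fun y s hy hlt ↦ ?_⟩
    have hl : liftSub R y ∘ Sum.inl = fun _ ↦ y 0 := rfl
    have hr : liftSub R y ∘ Sum.inr = Fin.tail y := rfl
    rw [liftSub_compSub, liftSub_prodSub, hl, hr]
    revert hy hlt
    refine Fin.cases ?_ (fun s' ↦ ?_) s
    · intro hy _
      obtain ⟨i, hi⟩ := exists_none_liftSub L (y := fun _ ↦ none) ⟨(), rfl⟩
      simp only [Fin.cons_zero, hy]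
      refine hc _ _ (Fin.castAdd n'' i) (by simp [hi]) (by simp [hi]) ?_
      intro t
      refine Fin.addCases (fun j _ ↦ ?_) (fun j hj ↦ ?_) t
      · simp
      · exfalso
        simp only [Fin.lt_def, Fin.val_natAdd, Fin.val_castAdd] at hj
        omega
    · intro hy hlt
      obtain ⟨a, ha⟩ := Option.ne_none_iff_exists'.1 (hlt 0 (Fin.succ_pos _))
      have h1 : (fun _ : Unit ↦ y 0) = some ∘ fun _ ↦ a := by funext u; simp [ha]
      have h2 := hU (Fin.tail y) s' hy fun t ht ↦ hlt t.succ (Fin.succ_lt_succ_iff.2 ht)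
      rw [h1, liftSub_some, Fin.cons_succ]
      exact (congrFun h2 _).trans (congrFun (hL fun _ ↦ a) s')

/-- **Graham–Rothschild theorem for lines**, in terms of words over `Option α`. -/
theorem exists_mono_lines (α : Type) [Finite α] [Nonempty α] (κ : Type) [Finite κ] (m : ℕ) :
    ∃ n, ∀ c : (Fin n → Option α) → κ, ∃ l : Subspace (Fin m) α (Fin n), ∃ c0,
      ∀ y, (∃ e, y e = none) → c (liftSub l y) = c0 := by
  classical
  cases nonempty_fintype κ
  set M := Fintype.card κ * m + 1
  obtain ⟨M', hM'⟩ := exists_position_subspace α M κ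
  obtain ⟨n, hn⟩ := exists_prefix_subspace α M' κ
  refine ⟨n, fun c ↦ ?_⟩
  obtain ⟨B, hB⟩ := hn c
  obtain ⟨U, col, hU⟩ := hM' _ hB
  obtain ⟨c0, hc0⟩ := Fintype.exists_lt_card_fiber_of_mul_lt_card col (n := m)
    (by simp [M])
  set S := Finset.univ.filter fun s ↦ col s = c0
  let f : Fin m ↪o Fin M := S.orderEmbOfCardLe hc0.le
  have hf : ∀ e, col (f e) = c0 := fun e ↦
    (Finset.mem_filter.1 (Finset.orderEmbOfCardLe_mem S hc0.le e)).2
  let a0 : α := Classical.arbitrary α
  let V : Subspace (Fin m) α (Fin M) :=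
    { idxFun := fun j ↦ if h : ∃ e, f e = j then Sum.inr h.choose else Sum.inl a0
      proper := fun e ↦ ⟨f e, by
        have h : ∃ e', f e' = f e := ⟨e, rfl⟩
        rw [dif_pos h, f.injective h.choose_spec]⟩ }
  refine ⟨compSub B (compSub U V), c0, fun y hy ↦ ?_⟩
  rw [liftSub_compSub, liftSub_compSub]
  set z := liftSub V y with hz
  obtain ⟨i, hi⟩ := exists_none_liftSub V hy
  set T := Finset.univ.filter fun j ↦ z j = none
  have hT : T.Nonempty := ⟨i, by simp [T, hz, hi]⟩
  set s := T.min' hT
  have hs : z s = none := (Finset.mem_filter.1 (T.min'_mem hT)).2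
  have hlt : ∀ t < s, z t ≠ none := fun t ht h ↦
    (not_le.2 ht) (T.min'_le t (by simp [T, h]))
  rw [hU z s hs hlt]
  by_cases h : ∃ e, f e = s
  · obtain ⟨e, he⟩ := h
    rw [← he, hf]
  · simp [hz, V, liftSub, Subspace.coe_apply, dif_neg h] at hs

end FA.DensityHJ
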