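import Fermat.Agent.DensityHJ.Insensitive
import Fermat.Agent.DensityHJ.GrahamRothschild

/-!
# The density increment and the density Hales–Jewett theorem

Following Dodos, Kanellopoulos and Tyros: if a dense set in the cube over `Option α` has no line,
then on a subspace where all sections are uniformly dense the set avoids a large intersection of
insensitive sets, hence gains density on the complement, hence on some subspace.
-/

namespace FA.DensityHJ

open Combinatorics Function Finset

open scoped Classical in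
theorem exists_uniform_subspace {β : Type} [Fintype β] [Nonempty β] (m : ℕ) {η : ℝ}
    (hη : 0 < η) : ∃ N, ∀ n, N ≤ n → ∀ A : Finset (Fin n → β), ∀ a : ℝ,
      a * Fintype.card (Fin n → β) ≤ #A →
      ∃ M', ∃ U : Subspace (Fin (m + M')) β (Fin n), ∀ x,
        (a - η) * Fintype.card (Fin M' → β) ≤
          (#{z | U (Fin.append x z) ∈ A} : ℝ) := by
  set Q : ℝ := (Fintype.card (Fin m → β) : ℝ) with hQ
  have hQ0 : 0 < Q := by positivity
  set ε := η / Q with hε
  have hε0 : 0 < ε := by positivity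
  suffices key : ∀ r : ℕ, ∀ n, (r + 1) * m ≤ n → ∀ A : Finset (Fin n → β), ∀ a : ℝ,
      1 - r * ε ≤ a → a * Fintype.card (Fin n → β) ≤ #A →
      ∃ M', ∃ U : Subspace (Fin (m + M')) β (Fin n), ∀ x,
        (a - η) * Fintype.card (Fin M' → β) ≤
          (#{z | U (Fin.append x z) ∈ A} : ℝ) by
    obtain ⟨r, hr⟩ := exists_nat_ge (1 / ε)
    rw [div_le_iff₀ hε0] at hr
    refine ⟨(r + 1) * m, fun n hn A a hA ↦ ?_⟩
    rcases le_or_gt (1 - r * ε) a with ha | ha
    · exact key r n hn A a ha hA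
    · have h0 : a ≤ 0 := by linarith
      obtain ⟨M', rfl⟩ : ∃ M', n = m + M' := ⟨n - m, by
        have : m ≤ n := by nlinarith
        omega⟩
      exact ⟨M', idSub β _, fun x ↦ le_trans (mul_nonpos_of_nonpos_of_nonneg (by linarith)
        (Nat.cast_nonneg _)) (Nat.cast_nonneg _)⟩
  intro r
  induction r with
  | zero =>
    intro n hn A a ha hA
    obtain ⟨M', rfl⟩ : ∃ M', n = m + M' := ⟨n - m, by omega⟩
    have hAu : A = univ := by
      refine eq_univ_of_card A (le_antisymm (card_le_univ A) ?_)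
      have h0 : (Fintype.card (Fin (m + M') → β) : ℝ) ≤ #A := by
        simp only [Nat.cast_zero, zero_mul, sub_zero] at ha
        exact (le_mul_of_one_le_left (Nat.cast_nonneg _) ha).trans hA
      exact_mod_cast h0
    refine ⟨M', idSub β _, fun x ↦ ?_⟩
    have h1 : a ≤ 1 := by
      by_contra hc
      have h2 : (0 : ℝ) < Fintype.card (Fin (m + M') → β) := by positivity
      have h3 : (#A : ℝ) ≤ Fintype.card (Fin (m + M') → β) := by exact_mod_cast card_le_univ _
      nlinarith
    rw [hAu]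
    simp only [mem_univ, filter_true, card_univ]
    exact mul_le_of_le_one_left (Nat.cast_nonneg _) (by linarith)
  | succ r ih =>
    intro n hn A a ha hA
    obtain ⟨n', rfl⟩ : ∃ n', n = m + n' := ⟨n - m, by
      have : m ≤ n := by nlinarith
      omega⟩
    set Z : ℝ := (Fintype.card (Fin n' → β) : ℝ) with hZ
    by_cases hall : ∀ x, (a - η) * Z ≤ (#{z | Fin.append x z ∈ A} : ℝ)
    · exact ⟨n', idSub β _, fun x ↦ by simpa [hZ] using hall x⟩
    push Not at hall
    obtain ⟨x0, hx0⟩ := hall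
    have hsum : ∑ x, (#{z | Fin.append x z ∈ A} : ℝ) = #A := by
      simp_rw [natCast_card_filter]
      rw [← sum_append (fun v ↦ if v ∈ A then (1 : ℝ) else 0)]
      simp
    obtain ⟨x1, hx1⟩ : ∃ x, (a + ε) * Z ≤ (#{z | Fin.append x z ∈ A} : ℝ) := by
      by_contra hc
      push Not at hc
      have h1 : ∑ x ∈ univ.erase x0, (#{z | Fin.append x z ∈ A} : ℝ) ≤
          (Q - 1) * ((a + ε) * Z) := by
        refine (sum_le_sum fun x _ ↦ (hc x).le).trans (le_of_eq ?_)
        rw [sum_const, nsmul_eq_mul, card_erase_of_mem (mem_univ _), card_univ,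
          Nat.cast_sub Fintype.card_pos, Nat.cast_one]
      have h2 := add_sum_erase univ (fun x ↦ (#{z | Fin.append x z ∈ A} : ℝ)) (mem_univ x0)
      rw [hsum] at h2
      rw [card_cube_add, ← hQ, ← hZ] at hA
      have h3 : Q * ε = η := by rw [hε]; field_simp
      have hZ0 : 0 ≤ Z := Nat.cast_nonneg _
      have h4 : 0 ≤ ε * Z := by positivity
      have h5 : Q * ε * Z = η * Z := by rw [h3]
      linarith
    obtain ⟨M', U, hU⟩ := ih n' (by nlinarith) _ (a + ε) (by push_cast at ha; linarith) hx1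
    refine ⟨M', compSub (leftFix x1 (idSub β _)) U, fun x ↦ le_trans ?_ (le_trans (hU x) ?_)⟩
    · gcongr
      linarith
    · simp

/-- The density threshold `δ` suffices for lines over `β`. -/
def GoodDensity (β : Type) [Fintype β] (δ : ℝ) : Prop :=
  ∃ N, ∀ n, N ≤ n → ∀ A : Finset (Fin n → β),
    δ * Fintype.card (Fin n → β) ≤ #A → ∃ l : Line β (Fin n), ∀ a, l a ∈ A

instance instFiniteLine (β ι : Type*) [Finite β] [Finite ι] : Finite (Line β ι) :=
  Finite.of_injective Line.idxFun fun _ _ h ↦ Line.ext h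

open scoped Classical in
theorem good_density_step {α : Type} [Fintype α] [Nonempty α] (h : DenseLines α) {δ0 : ℝ}
    (hδ0 : 0 < δ0) : ∃ γ > 0, ∀ δ, δ0 ≤ δ → GoodDensity (Option α) (δ + γ) →
      GoodDensity (Option α) δ := by
  obtain ⟨N1, hN1⟩ := h (δ0 / 4) (by positivity)
  set θ : ℝ := δ0 / 4 / (Nat.card (Line α (Fin N1)) + 1) with hθ
  have hθ0 : 0 < θ := by positivity
  set e : ℝ := δ0 * θ / 16 with he
  have he0 : 0 < e := by positivity
  refine ⟨e, he0, fun δ hδ ⟨d, hd⟩ ↦ ?_⟩
  set k := Fintype.card α with hk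
  set β : ℝ := e / (2 ^ k * k + 1) with hβ
  have hβ0 : 0 < β := by positivity
  obtain ⟨Nc, hNc⟩ := insens_inter_sum_le h hβ0 (univ : Finset α) d
  set τ : ℝ := min e (1 / 2) with hτ
  have hτ0 : 0 < τ := lt_min he0 one_half_pos
  obtain ⟨T, hT⟩ := exists_pow_lt_of_lt_one hτ0 (show (k : ℝ) / (k + 1) < 1 by
    rw [div_lt_one (by positivity)]; linarith)
  set m' := N1 + (Nc + T) with hm'
  obtain ⟨m, hm⟩ := exists_mono_lines α Bool m'
  set η : ℝ := min e (δ0 / 2) with hη
  have hη0 : 0 < η := lt_min he0 (by positivity)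
  obtain ⟨N, hN⟩ := exists_uniform_subspace (β := Option α) m hη0
  refine ⟨N, fun n hn A hA ↦ ?_⟩
  by_contra hno
  set δ' := δ + e with hδ'
  have hgain : NoGain d fun v ↦ (if v ∈ A then (1 : ℝ) else 0) - δ' := by
    intro V
    by_contra hc
    rw [not_le, sum_sub_distrib, sum_const, card_univ, nsmul_eq_mul] at hc
    obtain ⟨L, hL⟩ := hd d le_rfl (univ.filter fun y ↦ V y ∈ A) (by
      rw [natCast_card_filter]; linarith)
    exact hno ⟨pushLine V L, fun b ↦ by rw [pushLine_apply]; exact (mem_filter.1 (hL b)).2⟩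
  obtain ⟨M', U, hU⟩ := hN n hn A δ hA
  set Z : ℝ := (Fintype.card (Fin M' → Option α) : ℝ) with hZ
  have hZ0 : 0 < Z := by positivity
  set G : (Fin m → Option α) → Finset (Fin M' → Option α) :=
    fun x ↦ univ.filter fun z ↦ ∀ a, U (Fin.append (some ∘ ground a x) z) ∈ A with hG
  obtain ⟨l, c0, hc0⟩ := hm fun x ↦ decide (θ * Z ≤ #(G x))
  let a0 : α := Classical.arbitrary α
  let V : Subspace (Fin N1) α (Fin m') := rightFix (idSub α _) fun _ ↦ a0
  -- every line of the subspace has a large common intersection of sections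
  have hgood : ∀ y : Fin m' → Option α, (∃ i, y i = none) →
      θ * Z ≤ #(G (liftSub l y)) := by
    suffices hc : c0 = true by
      intro y hy
      exact of_decide_eq_true ((hc0 y hy).trans hc)
    let P : (Fin N1 → α) → (Fin M' → Option α) → Prop :=
      fun w z ↦ U (Fin.append (some ∘ l (V w)) z) ∈ A
    have hPsum : δ0 / 2 * (Fintype.card (Fin N1 → α) * Fintype.card (Fin M' → Option α) : ℝ) ≤
        ∑ z, (#{w | P w z} : ℝ) := by
      have h1 : ∑ z, (#{w | P w z} : ℝ) = ∑ w, (#{z | P w z} : ℝ) := by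
        simp_rw [natCast_card_filter]
        exact sum_comm
      rw [h1]
      refine le_trans ?_ (sum_le_sum (f := fun _ ↦ (δ - η) * Z) fun w _ ↦ by
        convert! hU (some ∘ l (V w)))
      rw [sum_const, card_univ, nsmul_eq_mul]
      have : δ0 / 2 ≤ δ - η := by linarith [min_le_right e (δ0 / 2)]
      calc _ ≤ (δ - η) * (Fintype.card (Fin N1 → α) *
            Fintype.card (Fin M' → Option α) : ℝ) := by gcongr
        _ = _ := by ring
    have hZ1 := card_dense_sections P hPsum (by positivity)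
    set Z1 := univ.filter fun z : Fin M' → Option α ↦
      δ0 / 2 / 2 * Fintype.card (Fin N1 → α) ≤ (#{w | P w z} : ℝ)
    have hline : ∀ z ∈ Z1, ∃ L : Line α (Fin N1), ∀ a, P (L a) z := fun z hz ↦ by
      obtain ⟨L, hL⟩ := hN1 N1 le_rfl (univ.filter fun w ↦ P w z) (by
        have := (mem_filter.1 hz).2
        linarith)
      exact ⟨L, fun a ↦ (mem_filter.1 (hL a)).2⟩
    obtain ⟨z0, hz0⟩ : Z1.Nonempty := by
      refine card_pos.1 ?_
      have hpos : (0 : ℝ) < δ0 / 2 / 2 * Fintype.card (Fin M' → Option α) := by positivity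
      exact_mod_cast hpos.trans_le hZ1
    have : Nonempty (Line α (Fin N1)) := ⟨(hline z0 hz0).choose⟩
    have : Fintype (Line α (Fin N1)) := Fintype.ofFinite _
    let φ : (Fin M' → Option α) → Line α (Fin N1) := fun z ↦
      if hz : z ∈ Z1 then (hline z hz).choose else (hline z0 hz0).choose
    obtain ⟨L, hL⟩ := exists_card_fiber_le Z1 φ
    have hy : ∃ i, lineWord (pushLine V L) i = none := (pushLine V L).proper
    rw [← hc0 _ hy, decide_eq_true_eq]
    have hsub : Z1.filter (fun z ↦ φ z = L) ⊆ G (liftSub l (lineWord (pushLine V L))) := by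
      intro z hz
      obtain ⟨hz, hφ⟩ := mem_filter.1 hz
      simp only [φ, dif_pos hz] at hφ
      refine mem_filter.2 ⟨mem_univ _, fun a ↦ ?_⟩
      rw [ground_liftSub, ground_lineWord, pushLine_apply]
      exact hφ ▸ (hline z hz).choose_spec a
    refine le_trans ?_ (hL.trans (by exact_mod_cast card_le_card hsub))
    rw [le_div_iff₀ (by exact_mod_cast Fintype.card_pos)]
    have hK : (Fintype.card (Line α (Fin N1)) : ℝ) ≤ Nat.card (Line α (Fin N1)) + 1 := by
      rw [Nat.card_eq_fintype_card]; linarith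
    calc _ ≤ θ * Z * (Nat.card (Line α (Fin N1)) + 1 : ℝ) := by gcongr
      _ = δ0 / 2 / 2 * Fintype.card (Fin M' → Option α) := by
        rw [hθ, hZ]; field_simp; ring
      _ ≤ _ := hZ1
  set Q : ℝ := (Fintype.card (Fin m' → Option α) : ℝ) with hQ
  have hQ0 : 0 < Q := by positivity
  set S : Finset (Fin m' → Option α) := univ.filter fun y ↦ ¬∃ i, y i = none with hS
  have hScard : (#S : ℝ) ≤ τ * Q := by
    have h1 : S ⊆ univ.image fun w : Fin m' → α ↦ some ∘ w := by
      intro y hy
      refine mem_image.2 ⟨ground a0 y, mem_univ _, funext fun i ↦ ?_⟩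
      obtain ⟨a, ha⟩ := Option.ne_none_iff_exists'.1 (not_exists.1 (mem_filter.1 hy).2 i)
      simp [ground, ha]
    have h2 : #S ≤ k ^ m' := (card_le_card h1).trans (card_image_le.trans (by simp [hk]))
    have h3 : ((k : ℝ) / (k + 1)) ^ m' ≤ τ := by
      refine le_trans (pow_le_pow_of_le_one (by positivity) ?_ (by omega : T ≤ m')) hT.le
      rw [div_le_one (by positivity)]; linarith
    calc (#S : ℝ) ≤ (k : ℝ) ^ m' := by exact_mod_cast h2
      _ = ((k : ℝ) / (k + 1)) ^ m' * ((k : ℝ) + 1) ^ m' := by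
        rw [← mul_pow, div_mul_cancel₀]; positivity
      _ ≤ τ * ((k : ℝ) + 1) ^ m' := by gcongr
      _ = τ * Q := by simp [hQ, hk, Fintype.card_option]
  let E : (Fin M' → Option α) → α → Set (Fin m' → Option α) :=
    fun z a ↦ {y | U (Fin.append (some ∘ l (ground a y)) z) ∈ A}
  let D : (Fin M' → Option α) → Finset (Fin m' → Option α) :=
    fun z ↦ univ.filter fun y ↦ ∀ a, y ∈ E z a
  let F : (Fin M' → Option α) → (Fin m' → Option α) → ℝ :=
    fun z y ↦ (if U (Fin.append (liftSub l y) z) ∈ A then (1 : ℝ) else 0) - δ'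
  have hDc : ∀ z, ∑ y ∈ (D z)ᶜ, F z y ≤ e * Q := by
    intro z
    let pat : (Fin m' → Option α) → Finset α := fun y ↦ univ.filter fun a ↦ y ∈ E z a
    rw [← sum_fiberwise_of_maps_to (t := univ.erase univ) (g := pat) (fun y hy ↦ by
      simp only [mem_erase, mem_univ, and_true, ne_eq]
      intro hpat
      simp only [D, mem_compl, mem_filter, mem_univ, true_and] at hy
      exact hy fun a ↦ by
        have := (Finset.ext_iff.1 hpat a).2 (mem_univ a)
        simpa [pat] using this) (F z)]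
    have hterm : ∀ T' ∈ (univ : Finset (Finset α)).erase univ,
        ∑ y ∈ (D z)ᶜ.filter (fun y ↦ pat y = T'), F z y ≤ k * β * Q := by
      intro T' hT'
      have hNc' := hNc m' (by omega) (fun a ↦ if a ∈ T' then E z a else (E z a)ᶜ) ?_ (F z) ?_ ?_
      · refine le_trans (le_of_eq (sum_congr ?_ fun _ _ ↦ rfl)) (by simpa [hk, hQ] using hNc')
        ext y
        simp only [mem_filter, mem_compl, mem_univ, true_and, D, pat, Finset.ext_iff]
        constructor
        · rintro ⟨-, hp⟩ a
          by_cases ha : a ∈ T'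
          · simp [ha, (hp a).2 ha]
          · simp only [ha, ↓reduceIte, Set.mem_compl_iff]
            exact fun hy ↦ ha ((hp a).1 hy)
        · intro hy
          have hiff : ∀ a, y ∈ E z a ↔ a ∈ T' := fun a ↦ by
            have := hy a
            by_cases ha : a ∈ T' <;> simp_all
          refine ⟨fun hall ↦ ?_, hiff⟩
          refine (mem_erase.1 hT').1 (eq_univ_of_forall fun a ↦ (hiff a).1 (hall a))
      · intro a _
        have : Insens a (E z a) :=
          insens_ground a {w : Fin m' → α | U (Fin.append (some ∘ l w) z) ∈ A}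
        show Insens a (if a ∈ T' then E z a else (E z a)ᶜ)
        split_ifs
        exacts [this, this.compl]
      · intro y
        simp only [F]
        have : 0 ≤ δ' := by linarith
        split_ifs <;> linarith
      · intro W
        simpa [F] using (hgain.comp (compSub U (rightFix (liftSub l) z))) W
    refine (sum_le_sum hterm).trans ?_
    rw [sum_const, nsmul_eq_mul]
    have h1 : (#((univ : Finset (Finset α)).erase univ) : ℝ) ≤ 2 ^ k := by
      exact_mod_cast (card_erase_le.trans (by simp [hk]))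
    calc _ ≤ 2 ^ k * ((k : ℝ) * β * Q) := by gcongr
      _ = 2 ^ k * k * β * Q := by ring
      _ ≤ e * Q := by
        gcongr
        rw [hβ, mul_div_assoc', div_le_iff₀ (by positivity)]
        nlinarith [he0]
  have hD : ∀ z, ∑ y ∈ D z, F z y ≤ τ * Q - δ' * #(D z) := by
    intro z
    simp only [F, sum_sub_distrib, sum_const, nsmul_eq_mul]
    have h1 : (∑ y ∈ D z, if U (Fin.append (liftSub l y) z) ∈ A then (1 : ℝ) else 0) ≤ τ * Q := by
      rw [← sum_filter, sum_const, nsmul_one]
      refine le_trans ?_ hScard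
      refine Nat.cast_le.2 (card_le_card fun y hy ↦ ?_)
      obtain ⟨hyD, hyA⟩ := mem_filter.1 hy
      refine mem_filter.2 ⟨mem_univ _, fun hnone ↦ hno ?_⟩
      refine ⟨pushLine (compSub U (rightFix (idSub _ _) z))
        (optionLine (liftSub l y) (exists_none_liftSub l hnone)), fun o ↦ ?_⟩
      rw [pushLine_apply, compSub_apply, rightFix_apply, idSub_apply]
      rcases o with _ | a
      · rw [optionLine_none]; exact hyA
      · rw [optionLine_some, ground_liftSub]
        exact (mem_filter.1 hyD).2 a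
    linarith
  have hlow : (δ - η - δ') * (Q * Z) ≤ ∑ z, ∑ y, F z y := by
    rw [sum_comm]
    simp only [F, sum_sub_distrib, sum_const, card_univ, nsmul_eq_mul, ← natCast_card_filter]
    have h1 : ∑ y : Fin m' → Option α, (δ - η) * Z ≤
        ∑ y : Fin m' → Option α, (#{z | U (Fin.append (liftSub l y) z) ∈ A} : ℝ) :=
      sum_le_sum fun y _ ↦ by convert! hU (liftSub l y)
    rw [sum_const, card_univ, nsmul_eq_mul, ← hQ] at h1
    rw [← hQ, ← hZ]
    linarith
  have hDsum : (1 - τ) * θ * (Q * Z) ≤ ∑ z, (#(D z) : ℝ) := by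
    have h1 : ∑ z, (#(D z) : ℝ) = ∑ y, (#(G (liftSub l y)) : ℝ) := by
      simp only [D, G, E, natCast_card_filter, Set.mem_ofPred_eq, ground_liftSub]
      exact sum_comm
    have h2 : ∑ y ∈ Sᶜ, θ * Z ≤ ∑ y ∈ Sᶜ, (#(G (liftSub l y)) : ℝ) :=
      sum_le_sum fun y hy ↦ hgood y (by simpa [hS] using hy)
    have h3 : ∑ y ∈ Sᶜ, (#(G (liftSub l y)) : ℝ) ≤ ∑ y, (#(G (liftSub l y)) : ℝ) :=
      sum_le_univ_sum_of_nonneg fun y ↦ Nat.cast_nonneg _
    rw [sum_const, nsmul_eq_mul, card_compl, Nat.cast_sub (card_le_univ _), ← hQ] at h2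
    rw [h1]
    refine le_trans ?_ (h2.trans h3)
    calc (1 - τ) * θ * (Q * Z) = (Q - τ * Q) * (θ * Z) := by ring
      _ ≤ _ := by gcongr
  have hup : ∑ z, ∑ y, F z y ≤ (τ + e) * (Q * Z) - δ' * ∑ z, (#(D z) : ℝ) := by
    calc ∑ z, ∑ y, F z y = ∑ z, (∑ y ∈ D z, F z y + ∑ y ∈ (D z)ᶜ, F z y) := by
          simp only [sum_add_sum_compl]
      _ ≤ ∑ z, (τ * Q - δ' * #(D z) + e * Q) :=
          sum_le_sum fun z _ ↦ add_le_add (hD z) (hDc z)
      _ = _ := by
          simp only [sum_add_distrib, sum_sub_distrib, sum_const, card_univ, nsmul_eq_mul,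
            ← mul_sum, ← hZ]
          ring
  have hδ'0 : δ0 ≤ δ' := by linarith
  have h5 : δ' * ((1 - τ) * θ * (Q * Z)) ≤ δ' * ∑ z, (#(D z) : ℝ) :=
    mul_le_mul_of_nonneg_left hDsum (by linarith)
  have h6 : δ0 * θ / 2 * (Q * Z) ≤ δ' * ((1 - τ) * θ * (Q * Z)) := by
    have : (1 : ℝ) / 2 ≤ 1 - τ := by linarith [min_le_right e (1 / 2 : ℝ)]
    calc δ0 * θ / 2 * (Q * Z) = δ0 * ((1 / 2) * θ * (Q * Z)) := by ring
      _ ≤ _ := by
        have : 0 ≤ δ' := by linarith
        gcongr
  have h7 : (δ0 * θ / 2) * (Q * Z) ≤ (η + e + τ + e) * (Q * Z) := by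
    have h8 := hlow.trans hup
    rw [hδ'] at h8 h5 h6
    linarith
  have h8 := le_of_mul_le_mul_right h7 (by positivity)
  have hη1 : η ≤ e := min_le_left _ _
  have hτ1 : τ ≤ e := min_le_left _ _
  linarith

theorem DenseLines.option {α : Type} [Fintype α] [Nonempty α] (h : DenseLines α) :
    DenseLines (Option α) := by
  intro δ hδ
  obtain ⟨γ, hγ, hstep⟩ := good_density_step h hδ
  suffices key : ∀ r : ℕ, ∀ δ', δ ≤ δ' → 1 < δ' + r * γ → GoodDensity (Option α) δ' by
    obtain ⟨r, hr⟩ := exists_nat_gt ((1 - δ) / γ)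
    rw [div_lt_iff₀ hγ] at hr
    exact key r δ le_rfl (by linarith)
  intro r
  induction r with
  | zero =>
    intro δ' _ h1
    refine ⟨0, fun n _ A hA ↦ ?_⟩
    exfalso
    have h2 : (#A : ℝ) ≤ Fintype.card (Fin n → Option α) := by exact_mod_cast card_le_univ _
    have h3 : (0 : ℝ) < Fintype.card (Fin n → Option α) := by positivity
    simp only [Nat.cast_zero, zero_mul, add_zero] at h1
    nlinarith
  | succ r ih =>
    intro δ' hδ' h1
    exact hstep δ' hδ' (ih (δ' + γ) (by linarith) (by push_cast at h1; linarith))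

theorem DenseLines.congr {α β : Type} [Fintype α] [Fintype β] (e : α ≃ β) (h : DenseLines α) :
    DenseLines β := by
  classical
  intro δ hδ
  obtain ⟨N, hN⟩ := h δ hδ
  refine ⟨N, fun n hn A hA ↦ ?_⟩
  obtain ⟨l, hl⟩ := hN n hn (univ.filter fun w : Fin n → α ↦ e ∘ w ∈ A) (by
    rw [Fintype.card_congr ((Equiv.refl (Fin n)).arrowCongr e)]
    refine hA.trans (le_of_eq ?_)
    refine congrArg Nat.cast (card_bij (fun b _ ↦ e.symm ∘ b) (fun b hb ↦ ?_)
      (fun b _ b' _ hbb' ↦ funext fun i ↦ e.symm.injective (congrFun hbb' i)) fun w hw ↦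
      ⟨e ∘ w, (mem_filter.1 hw).2, funext fun i ↦ by simp⟩)
    refine mem_filter.2 ⟨mem_univ _, ?_⟩
    rwa [show e ∘ e.symm ∘ b = b from funext fun i ↦ by simp])
  refine ⟨l.map e, fun b ↦ ?_⟩
  obtain ⟨a, rfl⟩ := e.surjective b
  rw [Line.map_apply]
  exact (mem_filter.1 (hl a)).2

/-- **Density Hales–Jewett theorem.** -/
theorem denseLines_fin (k : ℕ) : DenseLines (Fin k) := by
  induction k with
  | zero =>
    intro δ _
    refine ⟨1, fun n hn A _ ↦ ?_⟩
    have : NeZero n := ⟨by omega⟩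
    exact ⟨Line.diagonal (Fin 0) (Fin n), fun a ↦ a.elim0⟩
  | succ k ih =>
    rcases eq_or_ne k 0 with rfl | hk
    · intro δ hδ
      refine ⟨1, fun n hn A hA ↦ ?_⟩
      have : NeZero n := ⟨by omega⟩
      have hpos : (0 : ℝ) < δ * Fintype.card (Fin n → Fin (0 + 1)) := by positivity
      obtain ⟨w, hw⟩ := card_pos.1 (show 0 < #A by exact_mod_cast hpos.trans_le hA)
      refine ⟨Line.diagonal (Fin (0 + 1)) (Fin n), fun a ↦ ?_⟩
      have hsub : Line.diagonal (Fin (0 + 1)) (Fin n) a = w :=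
        funext fun i ↦ Fin.ext (by omega)
      rwa [hsub]
    · have : Nonempty (Fin k) := ⟨⟨0, Nat.pos_of_ne_zero hk⟩⟩
      exact ih.option.congr finSuccEquivLast.symm

end FA.DensityHJ
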