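import Fermat.Agent.DensityHJ.Multi
import Mathlib.Tactic.Ring
import Mathlib.Data.Fintype.Option
import Mathlib.Analysis.SpecificLimits.Basic

/-!
# Insensitive sets are almost unions of subspaces

In dual form: a function bounded by one whose sum over every subspace of a given dimension is
nonpositive has small sum over every intersection of insensitive sets.
-/

namespace FA.DensityHJ

open Combinatorics Function Finset

variable {α : Type} [Fintype α]

/-- Averaging over subspaces of dimension `d` never gives a positive value. -/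
def NoGain {β : Type*} [Fintype β] {n : ℕ} (d : ℕ) (f : (Fin n → β) → ℝ) : Prop :=
  ∀ V : Subspace (Fin d) β (Fin n), ∑ y, f (V y) ≤ 0

lemma NoGain.comp {β : Type*} [Fintype β] {n n' d : ℕ} {f : (Fin n → β) → ℝ} (h : NoGain d f)
    (V : Subspace (Fin n') β (Fin n)) : NoGain d fun y ↦ f (V y) := fun W ↦ by
  simpa using h (compSub V W)

lemma NoGain.sum_univ_le {β : Type*} [Fintype β] {n d : ℕ} (hn : d ≤ n)
    {f : (Fin n → β) → ℝ} (h : NoGain d f) : ∑ x, f x ≤ 0 := by
  obtain ⟨r, rfl⟩ : ∃ r, n = d + r := ⟨n - d, by omega⟩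
  rw [sum_append, sum_comm]
  exact sum_nonpos fun z _ ↦ by simpa using h (rightFix (idSub β (Fin d)) z)

open scoped Classical in
theorem exists_cube_in_dense [Nonempty α] (p : ℕ) {b : ℝ} (hb : 0 < b) :
    ∃ M, ∀ n, M ≤ n → ∀ D : Finset (Fin n → Option α),
      b * Fintype.card (Fin n → Option α) ≤ #D →
      ∃ l : Subspace (Fin p) (Option α) (Fin n),
        b / 2 * Fintype.card (Fin p → α) ≤ (#{w : Fin p → α | l (some ∘ w) ∈ D} : ℝ) := by
  classical
  set kp : ℝ := (Fintype.card (Fin p → α) : ℝ) with hkp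
  set qp : ℝ := (Fintype.card (Fin p → Option α) : ℝ) with hqp
  have hkp0 : 0 < kp := by positivity
  have hqp0 : 0 < qp := by positivity
  set ρ := kp / qp with hρ
  have hρ0 : 0 < ρ := by positivity
  suffices key : ∀ r : ℕ, ∀ b' : ℝ, b ≤ b' → 1 < b' * (1 + ρ / 2) ^ r →
      ∀ n, r * p ≤ n → ∀ D : Finset (Fin n → Option α),
      b' * Fintype.card (Fin n → Option α) ≤ #D →
      ∃ l : Subspace (Fin p) (Option α) (Fin n),
        b / 2 * kp ≤ (#{w : Fin p → α | l (some ∘ w) ∈ D} : ℝ) by
    obtain ⟨r, hr⟩ := pow_unbounded_of_one_lt (1 / b) (show (1 : ℝ) < 1 + ρ / 2 by linarith)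
    exact ⟨r * p, fun n hn D hD ↦
      key r b le_rfl (by rw [div_lt_iff₀ hb] at hr; linarith) n hn D hD⟩
  intro r
  induction r with
  | zero =>
    intro b' _ h n _ D hD
    exfalso
    have h1 : (#D : ℝ) ≤ Fintype.card (Fin n → Option α) := by exact_mod_cast card_le_univ _
    have h2 : (0 : ℝ) < Fintype.card (Fin n → Option α) := by positivity
    simp only [pow_zero, mul_one] at h
    nlinarith
  | succ r ih =>
    intro b' hbb' h n hn D hD
    obtain ⟨n', rfl⟩ : ∃ n', n = p + n' := ⟨n - p, by
      have : p ≤ n := by nlinarith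
      omega⟩
    set Z : ℝ := (Fintype.card (Fin n' → Option α) : ℝ) with hZ
    let g : (Fin p → Option α) → ℝ := fun x ↦ (#{z | Fin.append x z ∈ D} : ℝ)
    have hsum : ∑ x, g x = (#D : ℝ) := by
      simp_rw [g, natCast_card_filter]
      rw [← sum_append (fun v ↦ if v ∈ D then (1 : ℝ) else 0)]
      simp
    by_cases hlarge : b' / 2 * kp * Z ≤ ∑ w : Fin p → α, g (some ∘ w)
    · have hswap : ∑ w : Fin p → α, g (some ∘ w) =
          ∑ z : Fin n' → Option α, (#{w : Fin p → α | Fin.append (some ∘ w) z ∈ D} : ℝ) := by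
        simp_rw [g, natCast_card_filter]
        exact sum_comm
      obtain ⟨z, -, hz⟩ := exists_le_of_sum_le (s := (univ : Finset (Fin n' → Option α)))
        univ_nonempty (f := fun _ ↦ b' / 2 * kp)
        (g := fun z ↦ (#{w : Fin p → α | Fin.append (some ∘ w) z ∈ D} : ℝ))
        (by rw [sum_const, card_univ, nsmul_eq_mul, ← hswap]; linarith)
      refine ⟨rightFix (idSub _ _) z, (show b / 2 * kp ≤ b' / 2 * kp by gcongr).trans ?_⟩
      simpa using hz
    · rw [not_le] at hlarge
      let S : Finset (Fin p → Option α) := univ.image fun w : Fin p → α ↦ some ∘ w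
      have hinj : Injective fun w : Fin p → α ↦ some ∘ w :=
        fun w w' hw ↦ funext fun i ↦ Option.some_injective _ (congrFun hw i)
      have hSsum : ∑ x ∈ S, g x = ∑ w : Fin p → α, g (some ∘ w) :=
        sum_image fun w _ w' _ hw ↦ hinj hw
      have hScard : (#(Sᶜ) : ℝ) = qp - kp := by
        rw [card_compl, Nat.cast_sub (card_le_univ _), card_image_of_injective _ hinj, card_univ]
      obtain ⟨x, hx⟩ : ∃ x, b' * (1 + ρ / 2) * Z ≤ g x := by
        by_contra hall
        push Not at hall
        have h1 : ∑ x ∈ Sᶜ, g x ≤ (qp - kp) * (b' * (1 + ρ / 2) * Z) := by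
          rw [← hScard]
          simpa using sum_le_sum fun x (_ : x ∈ Sᶜ) ↦ (hall x).le
        have h2 : b' * (qp * Z) ≤ ∑ x ∈ S, g x + ∑ x ∈ Sᶜ, g x := by
          rw [sum_add_sum_compl, hsum, hqp, hZ, ← card_cube_add]
          exact hD
        have h3 : kp = ρ * qp := by rw [hρ]; field_simp
        rw [hSsum] at h2
        rw [h3] at h1 hlarge
        have h4 : 0 < b' * qp * Z := by
          have : 0 < b' := hb.trans_le hbb'
          positivity
        nlinarith [mul_pos h4 (mul_pos hρ0 hρ0)]
      obtain ⟨l, hl⟩ := ih (b' * (1 + ρ / 2)) (by nlinarith) (by rw [pow_succ] at h; linarith)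
        n' (by nlinarith) _ hx
      exact ⟨leftFix x l, by simpa using hl⟩

theorem exists_subspace_in_insens [Nonempty α] (h : DenseLines α) (d : ℕ) {b : ℝ} (hb : 0 < b) :
    ∃ M, ∀ n, M ≤ n → ∀ a, ∀ D : Finset (Fin n → Option α), Insens a (D : Set (Fin n → Option α)) →
      b * Fintype.card (Fin n → Option α) ≤ #D →
      ∃ l : Subspace (Fin d) (Option α) (Fin n), ∀ y, l y ∈ D := by
  classical
  obtain ⟨p, hp⟩ := exists_dense_subspace h d (b / 2) (by positivity)
  obtain ⟨M, hM⟩ := exists_cube_in_dense (α := α) p hb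
  refine ⟨M, fun n hn a D hins hD ↦ ?_⟩
  obtain ⟨l, hl⟩ := hM n hn D hD
  obtain ⟨V, hV⟩ := hp p le_rfl _ hl
  refine ⟨compSub l (liftSub V), fun y ↦ ?_⟩
  have hpre := hins.preimage l
  have := (hpre (liftSub V y)).1
  rw [ground_liftSub] at this
  simpa using this (mem_filter.1 (hV (ground a y))).2

theorem insens_sum_le [Nonempty α] (h : DenseLines α) (d : ℕ) {β : ℝ} (hβ : 0 < β) :
    ∃ N, ∀ n, N ≤ n → ∀ a, ∀ D : Finset (Fin n → Option α), Insens a (D : Set (Fin n → Option α)) →
      ∀ f : (Fin n → Option α) → ℝ, (∀ x, f x ≤ 1) → NoGain d f →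
      ∑ x ∈ D, f x ≤ β * Fintype.card (Fin n → Option α) := by
  classical
  have htriv : ∀ n, ∀ D : Finset (Fin n → Option α), ∀ f : (Fin n → Option α) → ℝ,
      (∀ x, f x ≤ 1) → ∑ x ∈ D, f x ≤ #D := fun n D f hf ↦
    (sum_le_sum fun x _ ↦ hf x).trans (by simp)
  rcases le_or_gt 1 β with hβ1 | hβ1
  · refine ⟨0, fun n _ a D _ f hf _ ↦ (htriv n D f hf).trans (le_trans ?_
      (le_mul_of_one_le_left (Nat.cast_nonneg _) hβ1))⟩
    exact_mod_cast card_le_univ _
  obtain ⟨M, hM⟩ := exists_subspace_in_insens h d (b := β / 4) (by positivity)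
  set K : ℝ := (Nat.card (Subspace (Fin d) (Option α) (Fin M)) : ℝ) + 1 with hK
  set Q : ℝ := (Fintype.card (Fin M → Option α) : ℝ) with hQ
  have hK1 : 1 ≤ K := by simp [K]
  have hQ1 : 1 ≤ Q := by
    rw [hQ]; exact_mod_cast Fintype.card_pos (α := Fin M → Option α)
  set η := β / 4 / (K * Q) with hη
  have hη0 : 0 < η := by positivity
  have hη1 : η ≤ 1 := by
    rw [hη, div_le_one (by positivity)]
    nlinarith
  suffices key : ∀ r : ℕ, ∀ n, r * M ≤ n → ∀ a, ∀ D : Finset (Fin n → Option α),
      Insens a (D : Set (Fin n → Option α)) →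
      ∀ f : (Fin n → Option α) → ℝ, (∀ x, f x ≤ 1) → NoGain d f →
      ∑ x ∈ D, f x ≤ β / 2 * Fintype.card (Fin n → Option α) + (1 - η) ^ r * #D by
    obtain ⟨r, hr⟩ := exists_pow_lt_of_lt_one (show 0 < β / 2 by positivity)
      (show 1 - η < 1 by linarith)
    refine ⟨r * M, fun n hn a D hins f hf hg ↦ (key r n hn a D hins f hf hg).trans ?_⟩
    have : (#D : ℝ) ≤ Fintype.card (Fin n → Option α) := by exact_mod_cast card_le_univ _
    nlinarith [pow_nonneg (show (0 : ℝ) ≤ 1 - η by linarith) r]
  intro r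
  induction r with
  | zero =>
    intro n _ a D _ f hf _
    have h0 : (0 : ℝ) ≤ β / 2 * Fintype.card (Fin n → Option α) := by positivity
    have := htriv n D f hf
    simp only [pow_zero, one_mul]
    linarith
  | succ r ih =>
    intro n hn a D hins f hf hg
    have hpow : 0 ≤ (1 - η) ^ r := pow_nonneg (by linarith) r
    rcases le_or_gt (#D : ℝ) (β / 2 * Fintype.card (Fin n → Option α)) with hsmall | hbig
    · have : 0 ≤ (1 - η) ^ (r + 1) * (#D : ℝ) :=
        mul_nonneg (pow_nonneg (by linarith) _) (Nat.cast_nonneg _)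
      linarith [htriv n D f hf]
    obtain ⟨n', rfl⟩ : ∃ n', n = M + n' := ⟨n - M, by
      have : M ≤ n := by nlinarith
      omega⟩
    have hn' : r * M ≤ n' := by nlinarith
    let P : (Fin M → Option α) → (Fin n' → Option α) → Prop := fun x z ↦ Fin.append x z ∈ D
    have hP : β / 2 * (Fintype.card (Fin M → Option α) * Fintype.card (Fin n' → Option α) : ℝ) ≤
        ∑ z, (#{x | P x z} : ℝ) := by
      rw [← card_cube_add]
      refine hbig.le.trans (le_of_eq ?_)
      simp_rw [natCast_card_filter]
      rw [sum_comm, ← sum_append (fun v ↦ if v ∈ D then (1 : ℝ) else 0)]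
      simp
    have hZ0 := card_dense_sections P hP (by positivity)
    set Z0 := univ.filter fun z : Fin n' → Option α ↦
      β / 2 / 2 * Fintype.card (Fin M → Option α) ≤ (#{x | P x z} : ℝ)
    have hsub : ∀ z ∈ Z0, ∃ l : Subspace (Fin d) (Option α) (Fin M),
        ∀ y, Fin.append (l y) z ∈ D := by
      intro z hz
      have hins' : Insens a (((univ : Finset (Fin M → Option α)).filter fun x ↦ P x z :
          Finset (Fin M → Option α)) : Set (Fin M → Option α)) := by
        simpa [P] using hins.preimage (rightFix (idSub _ _) z)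
      obtain ⟨l, hl⟩ := hM M le_rfl a _ hins' (by
        have := (mem_filter.1 hz).2
        linarith)
      exact ⟨l, fun y ↦ (mem_filter.1 (hl y)).2⟩
    obtain ⟨z0, hz0⟩ : Z0.Nonempty := by
      refine card_pos.1 ?_
      have hpos : (0 : ℝ) < β / 2 / 2 * Fintype.card (Fin n' → Option α) := by positivity
      exact_mod_cast hpos.trans_le hZ0
    have : Nonempty (Subspace (Fin d) (Option α) (Fin M)) := ⟨(hsub z0 hz0).choose⟩
    have : Fintype (Subspace (Fin d) (Option α) (Fin M)) := Fintype.ofFinite _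
    let φ : (Fin n' → Option α) → Subspace (Fin d) (Option α) (Fin M) := fun z ↦
      if hz : z ∈ Z0 then (hsub z hz).choose else (hsub z0 hz0).choose
    obtain ⟨V, hV⟩ := exists_card_fiber_le Z0 φ
    let Z1 : Finset (Fin n' → Option α) := univ.filter fun z ↦ ∀ y, Fin.append (V y) z ∈ D
    have hZ1 : η * Fintype.card (Fin (M + n') → Option α) ≤ (#Z1 : ℝ) := by
      have hsubset : Z0.filter (fun z ↦ φ z = V) ⊆ Z1 := by
        intro z hz
        obtain ⟨hz, hφ⟩ := mem_filter.1 hz
        simp only [φ, dif_pos hz] at hφ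
        exact mem_filter.2 ⟨mem_univ _, hφ ▸ (hsub z hz).choose_spec⟩
      refine le_trans ?_ (hV.trans (by exact_mod_cast card_le_card hsubset))
      rw [card_cube_add, hη, ← hQ, le_div_iff₀ (by exact_mod_cast Fintype.card_pos)]
      have hKge : (Fintype.card (Subspace (Fin d) (Option α) (Fin M)) : ℝ) ≤ K := by
        rw [hK, Nat.card_eq_fintype_card]; linarith
      calc _ ≤ β / 4 / (K * Q) * (Q * Fintype.card (Fin n' → Option α)) * K := by gcongr
        _ = β / 2 / 2 * Fintype.card (Fin n' → Option α) := by field_simp; ring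
        _ ≤ _ := hZ0
    have hZ1ins : Insens a (Z1 : Set (Fin n' → Option α)) := by
      intro z
      simp only [Z1, coe_filter, mem_univ, true_and, Set.mem_ofPred_eq]
      refine forall_congr' fun y ↦ ?_
      have := (hins.preimage (leftFix (V y) (idSub (Option α) (Fin n')))) z
      simpa using this
    let I : Finset (Fin M → Option α) := univ.image fun y ↦ V y
    have hVinj : Injective fun y ↦ V y := by
      intro y y' hy
      funext e
      obtain ⟨i, hi⟩ := V.proper e
      simpa [Subspace.coe_apply, hi] using congrFun hy i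
    let D' : Finset (Fin (M + n') → Option α) := D \ (I ×ˢ Z1).image fun q ↦ Fin.append q.1 q.2
    have hblock : (I ×ˢ Z1).image (fun q ↦ Fin.append q.1 q.2) ⊆ D := by
      intro v hv
      obtain ⟨⟨x, z⟩, hq, rfl⟩ := mem_image.1 hv
      obtain ⟨hx, hz⟩ := mem_product.1 hq
      obtain ⟨y, -, rfl⟩ := mem_image.1 hx
      exact (mem_filter.1 hz).2 y
    have happinj : Injective fun q : (Fin M → Option α) × (Fin n' → Option α) ↦
        Fin.append q.1 q.2 := (Fin.appendEquiv M n').injective
    have hblocksum : ∑ v ∈ (I ×ˢ Z1).image (fun q ↦ Fin.append q.1 q.2), f v ≤ 0 := by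
      rw [sum_image fun q _ q' _ hq ↦ happinj hq, sum_product_right]
      refine sum_nonpos fun z _ ↦ ?_
      rw [sum_image fun y _ y' _ hy ↦ hVinj hy]
      simpa using hg (rightFix V z)
    have hD'card : (#D' : ℝ) ≤ (1 - η) * #D := by
      have hI : 1 ≤ #I := card_pos.2 (univ_nonempty.image _)
      have h1 : #Z1 ≤ #((I ×ˢ Z1).image fun q ↦ Fin.append q.1 q.2) := by
        rw [card_image_of_injective _ happinj, card_product]
        exact Nat.le_mul_of_pos_left _ hI
      have h2 : (#D' : ℝ) = #D - #((I ×ˢ Z1).image fun q ↦ Fin.append q.1 q.2) := by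
        rw [card_sdiff_of_subset hblock, Nat.cast_sub (card_le_card hblock)]
      have h3 : (#D : ℝ) ≤ Fintype.card (Fin (M + n') → Option α) := by
        exact_mod_cast card_le_univ _
      have h4 : (#Z1 : ℝ) ≤ #((I ×ˢ Z1).image fun q ↦ Fin.append q.1 q.2) := by exact_mod_cast h1
      nlinarith
    have hD'sum : ∑ v ∈ D', f v ≤
        β / 2 * Fintype.card (Fin (M + n') → Option α) + (1 - η) ^ r * #D' := by
      have hsplit : ∀ F : (Fin (M + n') → Option α) → ℝ, ∑ v ∈ D', F v =
          ∑ x, ∑ z ∈ univ.filter (fun z ↦ Fin.append x z ∈ D'), F (Fin.append x z) := by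
        intro F
        simp_rw [sum_filter]
        rw [← sum_append (fun v ↦ if v ∈ D' then F v else 0)]
        simp
      have hcard : (#D' : ℝ) = ∑ x : Fin M → Option α,
          (#(univ.filter fun z ↦ Fin.append x z ∈ D') : ℝ) := by
        simpa using hsplit fun _ ↦ 1
      rw [hsplit, hcard, card_cube_add, mul_sum]
      refine (sum_le_sum fun x _ ↦ ih n' hn' a _ ?_ (fun z ↦ f (Fin.append x z))
        (fun z ↦ hf _) ?_).trans (le_of_eq ?_)
      · intro z
        have hDz : Fin.append x (some ∘ ground a z) ∈ D ↔ Fin.append x z ∈ D := by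
          simpa using (hins.preimage (leftFix x (idSub (Option α) (Fin n')))) z
        simp only [coe_filter, mem_univ, true_and, Set.mem_ofPred_eq, D', mem_sdiff, mem_image,
          mem_product, Prod.exists]
        refine and_congr hDz (not_congr ⟨?_, ?_⟩)
        · rintro ⟨x', z', ⟨hx', hz'⟩, heq⟩
          have h2 := @happinj (x', z') (x, some ∘ ground a z) heq
          simp only [Prod.mk.injEq] at h2
          rw [h2.1] at hx'
          rw [h2.2] at hz'
          exact ⟨x, z, ⟨hx', (hZ1ins z).1 hz'⟩, rfl⟩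
        · rintro ⟨x', z', ⟨hx', hz'⟩, heq⟩
          have h2 := @happinj (x', z') (x, z) heq
          simp only [Prod.mk.injEq] at h2
          rw [h2.1] at hx'
          rw [h2.2] at hz'
          exact ⟨x, some ∘ ground a z, ⟨hx', (hZ1ins z).2 hz'⟩, rfl⟩
      · intro W
        simpa using hg (leftFix x W)
      · rw [sum_add_distrib, sum_const, card_univ, nsmul_eq_mul]
        ring
    have hsplitD : ∑ v ∈ D, f v =
        ∑ v ∈ D', f v + ∑ v ∈ (I ×ˢ Z1).image (fun q ↦ Fin.append q.1 q.2), f v :=
      (sum_sdiff hblock).symm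
    rw [hsplitD, pow_succ]
    have h5 : (1 - η) ^ r * (#D' : ℝ) ≤ (1 - η) ^ r * ((1 - η) * #D) :=
      mul_le_mul_of_nonneg_left hD'card hpow
    rw [mul_assoc]
    linarith

open scoped Classical in
theorem insens_inter_sum_le [Nonempty α] (h : DenseLines α) {β : ℝ} (hβ : 0 < β)
    (S : Finset α) : ∀ d : ℕ, ∃ N, ∀ n, N ≤ n → ∀ E : α → Set (Fin n → Option α),
      (∀ a ∈ S, Insens a (E a)) →
      ∀ f : (Fin n → Option α) → ℝ, (∀ x, f x ≤ 1) → NoGain d f →
      ∑ x ∈ univ.filter (fun x ↦ ∀ a ∈ S, x ∈ E a), f x ≤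
        #S * β * Fintype.card (Fin n → Option α) := by
  classical
  induction S using Finset.induction_on with
  | empty =>
    intro d
    exact ⟨d, fun n hn E _ f _ hg ↦ by simpa using hg.sum_univ_le hn⟩
  | @insert a S haS ih =>
    intro d
    obtain ⟨N1, hN1⟩ := ih d
    obtain ⟨N, hN⟩ := insens_sum_le h N1 hβ
    refine ⟨N, fun n hn E hE f hf hg ↦ ?_⟩
    set c : ℝ := #S * β with hc
    have hc0 : 0 ≤ c := by positivity
    let P : (Fin n → Option α) → Prop := fun x ↦ ∀ b ∈ S, x ∈ E b
    let g : (Fin n → Option α) → ℝ := fun x ↦ (if P x then f x else 0) - c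
    have hg1 : ∀ x, g x ≤ 1 := by
      intro x
      simp only [g]
      split_ifs
      · linarith [hf x]
      · linarith
    have hgain : NoGain N1 g := by
      intro V
      have hV := hN1 N1 le_rfl (fun b ↦ {y | V y ∈ E b})
        (fun b hb ↦ (hE b (mem_insert_of_mem hb)).preimage V) (fun y ↦ f (V y))
        (fun y ↦ hf _) (hg.comp V)
      simp only [g, sum_sub_distrib, sum_const, card_univ, nsmul_eq_mul, P]
      rw [sum_filter] at hV
      simp only [Set.mem_ofPred_eq] at hV
      linarith
    have hmain := hN n hn a (univ.filter fun x ↦ x ∈ E a)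
      (by simpa using hE a (mem_insert_self _ _)) g hg1 hgain
    simp only [g, sum_sub_distrib, sum_const, nsmul_eq_mul] at hmain
    rw [← sum_filter, filter_filter] at hmain
    have hfilter : univ.filter (fun x ↦ ∀ b ∈ insert a S, x ∈ E b) =
        univ.filter (fun x ↦ x ∈ E a ∧ P x) := by
      refine filter_congr fun x _ ↦ ?_
      simp [P]
    rw [hfilter, card_insert_of_notMem haS]
    push_cast
    have hle : (#(univ.filter fun x ↦ x ∈ E a) : ℝ) * c ≤
        Fintype.card (Fin n → Option α) * c := by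
      gcongr
      exact card_le_univ _
    rw [hc] at hmain hle
    linarith

end FA.DensityHJ
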