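import Fermat.Agent.DensityHJ.Increment

/-!
# Density Hales–Jewett and Graham–Rothschild for arbitrary finite types
-/

namespace FA.DensityHJ

open Combinatorics Function Finset

universe u v w

theorem exists_line_of_dense (α : Type u) [Fintype α] {δ : ℝ} (hδ : 0 < δ) :
    ∃ N : ℕ, ∀ (ι : Type v) [Fintype ι], N ≤ Fintype.card ι → ∀ A : Set (ι → α),
      δ * (Fintype.card α : ℝ) ^ Fintype.card ι ≤ A.ncard → ∃ l : Line α ι, ∀ a, l a ∈ A := by
  classical
  let e : Fin (Fintype.card α) ≃ α := (Fintype.equivFin α).symm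
  obtain ⟨N, hN⟩ := denseLines_fin (Fintype.card α) δ hδ
  refine ⟨N, fun ι _ hι A hA ↦ ?_⟩
  let g : ι ≃ Fin (Fintype.card ι) := Fintype.equivFin ι
  let ψ : (Fin (Fintype.card ι) → Fin (Fintype.card α)) ≃ (ι → α) := g.symm.arrowCongr e
  obtain ⟨l, hl⟩ := hN _ hι (univ.filter fun w ↦ ψ w ∈ A) (by
    have h1 : (univ.filter fun w ↦ ψ w ∈ A) = A.toFinset.map ψ.symm.toEmbedding := by
      ext w; simp
    rw [h1, card_map, ← Set.ncard_eq_toFinset_card']
    simpa using hA)
  refine ⟨⟨fun i ↦ (l.idxFun (g i)).map e, ?_⟩, fun a ↦ ?_⟩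
  · obtain ⟨i, hi⟩ := l.proper
    exact ⟨g.symm i, by simp [hi]⟩
  · convert! (mem_filter.1 (hl (e.symm a))).2
    funext i
    cases h : l.idxFun (g i) <;> simp [ψ, h]

theorem exists_subspace_of_dense (α : Type u) [Fintype α] [Nonempty α] (η : Type w) [Fintype η]
    {δ : ℝ} (hδ : 0 < δ) :
    ∃ N : ℕ, ∀ (ι : Type v) [Fintype ι], N ≤ Fintype.card ι → ∀ A : Set (ι → α),
      δ * (Fintype.card α : ℝ) ^ Fintype.card ι ≤ A.ncard →
        ∃ l : Subspace η α ι, ∀ y, l y ∈ A := by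
  classical
  have : Nonempty (Fin (Fintype.card α)) := ⟨⟨0, Fintype.card_pos⟩⟩
  let e : Fin (Fintype.card α) ≃ α := (Fintype.equivFin α).symm
  let d : η ≃ Fin (Fintype.card η) := Fintype.equivFin η
  obtain ⟨N, hN⟩ := exists_dense_subspace (denseLines_fin (Fintype.card α)) (Fintype.card η) δ hδ
  refine ⟨N, fun ι _ hι A hA ↦ ?_⟩
  let g : ι ≃ Fin (Fintype.card ι) := Fintype.equivFin ι
  let ψ : (Fin (Fintype.card ι) → Fin (Fintype.card α)) ≃ (ι → α) := g.symm.arrowCongr e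
  obtain ⟨l, hl⟩ := hN _ hι (univ.filter fun w ↦ ψ w ∈ A) (by
    have h1 : (univ.filter fun w ↦ ψ w ∈ A) = A.toFinset.map ψ.symm.toEmbedding := by
      ext w; simp
    rw [h1, card_map, ← Set.ncard_eq_toFinset_card']
    simpa using hA)
  refine ⟨l.reindex d.symm e g.symm, fun y ↦ ?_⟩
  convert! (mem_filter.1 (hl (e.symm ∘ y ∘ d.symm))).2
  funext i
  simp [ψ]

theorem exists_mono_line_subspace (α : Type u) [Finite α] [Nonempty α] (κ : Type w) [Finite κ]
    (m : ℕ) : ∃ n, ∀ c : Line α (Fin n) → κ, ∃ V : Subspace (Fin m) α (Fin n), ∃ c0,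
      ∀ (L : Line α (Fin m)) (L' : Line α (Fin n)),
        (∀ i, L'.idxFun i = (V.idxFun i).elim some L.idxFun) → c L' = c0 := by
  classical
  cases nonempty_fintype α
  cases nonempty_fintype κ
  have : Nonempty (Fin (Fintype.card α)) := ⟨⟨0, Fintype.card_pos⟩⟩
  let e : Fin (Fintype.card α) ≃ α := (Fintype.equivFin α).symm
  obtain ⟨n, hn⟩ := exists_mono_lines (Fin (Fintype.card α)) (Option (Fin (Fintype.card κ))) m
  refine ⟨n + 1, fun c ↦ ?_⟩
  let a0 : α := Classical.arbitrary α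
  let f : (Fin n → Option (Fin (Fintype.card α))) → Option (Fin (Fintype.card κ)) := fun x ↦
    if h : ∃ i, x i = none then
      some (Fintype.equivFin κ (c ⟨Fin.cons (some a0) fun i ↦ (x i).map e,
        ⟨h.choose.succ, by simp [h.choose_spec]⟩⟩))
    else none
  obtain ⟨l, c0, hl⟩ := hn f
  refine ⟨⟨Fin.cons (Sum.inl a0) fun i ↦ (l.idxFun i).map e id, fun j ↦ ?_⟩,
    c0.elim (c ⟨fun _ ↦ none, 0, rfl⟩) (Fintype.equivFin κ).symm, fun L L' hL' ↦ ?_⟩
  · obtain ⟨i, hi⟩ := l.proper j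
    exact ⟨i.succ, by simp [hi]⟩
  · have hy : ∃ j, (Option.map e.symm ∘ L.idxFun) j = none :=
      L.proper.imp fun j hj ↦ by simp [hj]
    have hx := exists_none_liftSub l hy
    have h := hl _ hy
    simp only [f, dif_pos hx] at h
    rw [← h]
    simp only [Option.elim_some, Equiv.symm_apply_apply]
    congr 1
    ext1
    funext i
    refine Fin.cases ?_ (fun i ↦ ?_) i
    · simpa using hL' 0
    · rw [hL']
      cases h' : l.idxFun i <;>
        simp [liftSub, Subspace.coe_apply, h', Option.map_map, Function.comp_def]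

end FA.DensityHJ
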