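import Fermat.Agent.DensityHJ.Basic
import Mathlib.Algebra.Order.BigOperators.Group.Finset
import Mathlib.Algebra.BigOperators.Ring.Finset
import Mathlib.SetTheory.Cardinal.Finite
import Mathlib.Tactic.Linarith
import Mathlib.Tactic.FieldSimp
import Mathlib.Tactic.Positivity

/-!
# From the density Hales–Jewett property to its multidimensional form
-/

namespace FA.DensityHJ

open Combinatorics Function Finset

/-- The density Hales–Jewett property of an alphabet. -/
def DenseLines (α : Type) [Fintype α] : Prop :=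
  ∀ δ : ℝ, 0 < δ → ∃ N, ∀ n, N ≤ n → ∀ A : Finset (Fin n → α),
    δ * Fintype.card (Fin n → α) ≤ #A → ∃ l : Line α (Fin n), ∀ a, l a ∈ A

/-- Averaging: a dense set in a product has many dense sections. -/
lemma card_dense_sections {X Y : Type*} [Fintype X] [Fintype Y] [Nonempty X]
    (P : X → Y → Prop) [∀ y, DecidablePred fun x ↦ P x y] {δ : ℝ}
    (h : δ * (Fintype.card X * Fintype.card Y) ≤
      ∑ y, (#{x | P x y} : ℝ)) (hδ : 0 ≤ δ) :
    δ / 2 * Fintype.card Y ≤
      (#{y | δ / 2 * Fintype.card X ≤ (#{x | P x y} : ℝ)} : ℝ) := by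
  have hXpos : (0 : ℝ) < Fintype.card X := by exact_mod_cast Fintype.card_pos
  set q : Y → Prop := fun y ↦ δ / 2 * Fintype.card X ≤ (#{x | P x y} : ℝ)
  have key : ∑ y, (#{x | P x y} : ℝ) ≤
      ∑ y, (δ / 2 * Fintype.card X + if q y then (Fintype.card X : ℝ) else 0) := by
    refine sum_le_sum fun y _ ↦ ?_
    by_cases hy : q y
    · rw [if_pos hy]
      have : (#{x | P x y} : ℝ) ≤ Fintype.card X := by exact_mod_cast card_le_univ _
      nlinarith
    · rw [if_neg hy]
      exact (not_le.1 hy).le.trans (by simp)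
  rw [sum_add_distrib, sum_const, ← sum_filter, sum_const, card_univ, nsmul_eq_mul,
    nsmul_eq_mul] at key
  refine le_of_mul_le_mul_left ?_ hXpos
  linarith [h.trans key]

lemma exists_card_fiber_le {Y K : Type*} [Fintype K] (S : Finset Y) (f : Y → K) [Nonempty K]
    [DecidableEq K] :
    ∃ k, (#S : ℝ) / Fintype.card K ≤ #(S.filter fun y ↦ f y = k) := by
  obtain ⟨k, -, hk⟩ := exists_le_of_sum_le (s := (univ : Finset K)) univ_nonempty
    (f := fun _ ↦ (#S : ℝ) / Fintype.card K)
    (g := fun k ↦ ((#(S.filter fun y ↦ f y = k) : ℕ) : ℝ)) (by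
      rw [sum_const, card_univ, nsmul_eq_mul, mul_div_cancel₀ _
        (by exact_mod_cast Fintype.card_ne_zero (α := K))]
      exact le_of_eq (by
        rw [card_eq_sum_card_fiberwise (f := f) (t := univ) fun x _ ↦ mem_univ (f x)]
        push_cast
        rfl))
  exact ⟨k, hk⟩

instance instFintypeSubspace (η β ι : Type*) [Fintype η] [Fintype β] [Fintype ι] :
    Finite (Subspace η β ι) :=
  Finite.of_injective Subspace.idxFun fun _ _ h ↦ Subspace.ext h

/-- **Multidimensional density Hales–Jewett**, from the property for lines. -/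
theorem exists_dense_subspace {α : Type} [Fintype α] [Nonempty α] (h : DenseLines α) (d : ℕ) :
    ∀ δ : ℝ, 0 < δ → ∃ N, ∀ n, N ≤ n → ∀ A : Finset (Fin n → α),
      δ * Fintype.card (Fin n → α) ≤ #A → ∃ l : Subspace (Fin d) α (Fin n), ∀ y, l y ∈ A := by
  classical
  induction d with
  | zero =>
    intro δ hδ
    refine ⟨0, fun n _ A hA ↦ ?_⟩
    have hpos : (0 : ℝ) < δ * Fintype.card (Fin n → α) := by positivity
    obtain ⟨w, hw⟩ := card_pos.1 (show 0 < #A by exact_mod_cast hpos.trans_le hA)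
    exact ⟨⟨fun i ↦ Sum.inl (w i), fun e ↦ e.elim0⟩, fun y ↦ hw⟩
  | succ d ih =>
    intro δ hδ
    obtain ⟨m, hm⟩ := ih (δ / 2) (by positivity)
    set K := Nat.card (Subspace (Fin d) α (Fin m))
    obtain ⟨N, hN⟩ := h (δ / 2 / (K + 1)) (by positivity)
    refine ⟨m + N, fun n hn A hA ↦ ?_⟩
    obtain ⟨r, rfl⟩ : ∃ r, n = m + r := ⟨n - m, by omega⟩
    set P : (Fin m → α) → (Fin r → α) → Prop := fun x y ↦ Fin.append x y ∈ A
    have hP : δ * (Fintype.card (Fin m → α) * Fintype.card (Fin r → α) : ℝ) ≤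
        ∑ y, (#{x | P x y} : ℝ) := by
      rw [← card_cube_add]
      refine hA.trans (le_of_eq ?_)
      simp_rw [natCast_card_filter]
      rw [sum_comm, ← sum_append (fun v ↦ if v ∈ A then (1 : ℝ) else 0)]
      simp
    have hY := card_dense_sections P hP hδ.le
    set Y := univ.filter fun y ↦ δ / 2 * Fintype.card (Fin m → α) ≤ (#{x | P x y} : ℝ)
    have hsub : ∀ y ∈ Y, ∃ l : Subspace (Fin d) α (Fin m), ∀ z, Fin.append (l z) y ∈ A := by
      intro y hy
      obtain ⟨l, hl⟩ := hm m le_rfl _ (mem_filter.1 hy).2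
      exact ⟨l, fun z ↦ (mem_filter.1 (hl z)).2⟩
    have hYne : Y.Nonempty := by
      refine card_pos.1 ?_
      have hpos : (0 : ℝ) < δ / 2 * Fintype.card (Fin r → α) := by positivity
      exact_mod_cast hpos.trans_le hY
    obtain ⟨y0, hy0⟩ := hYne
    have : Nonempty (Subspace (Fin d) α (Fin m)) := ⟨(hsub y0 hy0).choose⟩
    have : Fintype (Subspace (Fin d) α (Fin m)) := Fintype.ofFinite _
    let f : (Fin r → α) → Subspace (Fin d) α (Fin m) := fun y ↦
      if hy : y ∈ Y then (hsub y hy).choose else (hsub y0 hy0).choose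
    obtain ⟨l, hl⟩ := exists_card_fiber_le Y f
    obtain ⟨L, hL⟩ := hN r (by omega) (Y.filter fun y ↦ f y = l) (by
      refine le_trans ?_ hl
      have hK : (0 : ℝ) < Fintype.card (Subspace (Fin d) α (Fin m)) := by
        exact_mod_cast Fintype.card_pos
      rw [le_div_iff₀ hK]
      refine le_trans (le_trans ?_ (le_refl _)) hY
      have hKeq : (K : ℝ) = Fintype.card (Subspace (Fin d) α (Fin m)) := by
        simp [K, Nat.card_eq_fintype_card]
      rw [← hKeq]
      rw [div_mul_eq_mul_div, div_mul_eq_mul_div, div_le_iff₀ (by positivity)]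
      nlinarith [show (0 : ℝ) ≤ δ / 2 * Fintype.card (Fin r → α) by positivity])
    let R : Subspace (Fin (d + 1)) α (Fin d ⊕ Unit) :=
      { idxFun := Sum.elim (fun e ↦ Sum.inr e.castSucc) fun _ ↦ Sum.inr (Fin.last d)
        proper := fun e ↦ by
          refine Fin.lastCases ?_ (fun e ↦ ?_) e
          · exact ⟨Sum.inr (), rfl⟩
          · exact ⟨Sum.inl e, rfl⟩ }
    refine ⟨compSub (prodSub l L.toSubspaceUnit) R, fun y ↦ ?_⟩
    rw [compSub_apply, prodSub_apply, Line.toSubspaceUnit_apply]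
    have hmem := hL (R y (Sum.inr ()))
    obtain ⟨hyY, hfy⟩ := mem_filter.1 hmem
    have hfy' := hfy
    simp only [f, dif_pos hyY] at hfy'
    have := (hsub _ hyY).choose_spec (R y ∘ Sum.inl)
    rw [hfy'] at this
    exact this

end FA.DensityHJ
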